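import Mathlib.Analysis.SpecialFunctions.Pow.Asymptotics
import Mathlib.NumberTheory.Real.Irrational
import Mathlib.Topology.MetricSpace.ProperSpace

/-!
# Khintchine's singular vectors

For `d ≥ 2` the rational points `p / b + w / N` with large `N` come so close to `p / b` that a
nested sequence of cubes gives vectors off all rational hyperplanes with very good approximations
at every height. For `d = 1` only the rationals are singular.
-/

set_option autoImplicit false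

noncomputable section

open Filter Topology Metric

namespace FA.SingularVectors

variable {d : ℕ}

/-- A closed set that every point can leave by an arbitrarily small rational step. -/
def Escapable (S : Set (Fin d → ℝ)) : Prop :=
  IsClosed S ∧ ∀ c : Fin d → ℝ, ∃ w : Fin d → ℤ,
    ∀ᶠ N : ℕ in atTop, (fun i => c i + (w i : ℝ) / N) ∉ S

theorem eventually_add_div_ne {v a : ℝ} (ha : a ≠ 0) : ∀ᶠ N : ℕ in atTop, v + a / N ≠ 0 := by
  rcases eq_or_ne v 0 with rfl | hv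
  · filter_upwards [eventually_gt_atTop 0] with N hN
    rw [zero_add]
    exact div_ne_zero ha (Nat.cast_ne_zero.2 hN.ne')
  · have h : Tendsto (fun N : ℕ => v + a / N) atTop (𝓝 v) := by
      simpa using (tendsto_const_div_atTop_nhds_zero_nat a).const_add v
    exact h.eventually_ne hv

theorem escapable_hyperplane {a : Fin d → ℤ} (ha : a ≠ 0) (n : ℤ) :
    Escapable {x : Fin d → ℝ | ∑ i, (a i : ℝ) * x i + n = 0} := by
  refine ⟨isClosed_eq (by fun_prop) continuous_const, fun c => ?_⟩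
  obtain ⟨i, hi⟩ := Function.ne_iff.1 ha
  refine ⟨Pi.single i 1, ?_⟩
  filter_upwards [eventually_add_div_ne (v := ∑ j, (a j : ℝ) * c j + n)
    (Int.cast_ne_zero.2 hi : (a i : ℝ) ≠ 0)] with N hN
  show ¬(_ = _)
  have e : ∀ j, (a j : ℝ) * (c j + ((Pi.single i 1 : Fin d → ℤ) j : ℝ) / N) =
      (a j : ℝ) * c j + if j = i then (a i : ℝ) / N else 0 := fun j => by
    rcases eq_or_ne j i with rfl | hj
    · simp only [Pi.single_eq_same, Int.cast_one, if_true]
      ring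
    · simp [hj]
  simp only [e, Finset.sum_add_distrib, Finset.sum_ite_eq', Finset.mem_univ, if_true]
  convert hN using 2
  ring

theorem escapable_singleton (hd : 0 < d) (z : Fin d → ℝ) : Escapable ({z} : Set (Fin d → ℝ)) := by
  refine ⟨isClosed_singleton, fun c => ⟨Pi.single ⟨0, hd⟩ 1, ?_⟩⟩
  filter_upwards [eventually_add_div_ne (v := c ⟨0, hd⟩ - z ⟨0, hd⟩) one_ne_zero] with N hN hmem
  have := congrFun (Set.mem_singleton_iff.1 hmem) ⟨0, hd⟩
  simp at this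
  exact hN (by rw [one_div]; linarith)

/-- One step of the construction. -/
theorem exists_step {S : Set (Fin d → ℝ)} (hS : Escapable S) {ψ : ℝ → ℝ}
    (hψ : Tendsto (fun Q => Q * ψ Q) atTop atTop) {b : ℕ} (hb : 0 < b) (p : Fin d → ℤ) {r : ℝ}
    (hr : 0 < r) :
    ∃ (b' : ℕ) (p' : Fin d → ℤ) (r' : ℝ), b < b' ∧ 0 < r' ∧
      closedBall (fun i => (p' i : ℝ) / b') r' ⊆ closedBall (fun i => (p i : ℝ) / b) r ∧
      Disjoint (closedBall (fun i => (p' i : ℝ) / b') r') S ∧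
      ∀ x ∈ closedBall (fun i => (p' i : ℝ) / b') r',
        ∀ i, |(b : ℝ) * x i - p i| ≤ ψ b' := by
  have hbR : (0 : ℝ) < b := Nat.cast_pos.2 hb
  obtain ⟨w, hw⟩ := hS.2 fun i => (p i : ℝ) / b
  set W : ℝ := ‖fun i => (w i : ℝ)‖ with hW
  have hlim : Tendsto (fun N : ℕ => ((b * N : ℕ) : ℝ) * ψ ((b * N : ℕ) : ℝ)) atTop atTop :=
    hψ.comp (tendsto_natCast_atTop_atTop.comp (tendsto_id.const_mul_atTop' hb))
  obtain ⟨N, ⟨⟨hN, hN2⟩, hNr⟩, hNψ⟩ := (((hw.and (eventually_ge_atTop 2)).and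
    ((tendsto_const_div_atTop_nhds_zero_nat W).eventually_lt_const (half_pos hr))).and
    (hlim.eventually_ge_atTop (2 * (b : ℝ) ^ 2 * W + 1))).exists
  have hNR : (0 : ℝ) < N := by exact_mod_cast (by omega : 0 < N)
  set c' : Fin d → ℝ := fun i => (p i : ℝ) / b + (w i : ℝ) / N with hc'
  have hc : (fun i => ((p i * N + b * w i : ℤ) : ℝ) / ((b * N : ℕ) : ℝ)) = c' := by
    funext i
    simp only [hc', Int.cast_add, Int.cast_mul, Int.cast_natCast, Nat.cast_mul]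
    field_simp
  obtain ⟨ρ, hρ, hball⟩ := nhds_basis_closedBall.mem_iff.1 (hS.1.isOpen_compl.mem_nhds hN)
  rw [Nat.cast_mul] at hNψ
  set T : ℝ := ψ ((b * N : ℕ) : ℝ) with hT
  rw [← Nat.cast_mul, ← hT, Nat.cast_mul] at hNψ
  have hT0 : 0 < T := by
    refine pos_of_mul_pos_right (lt_of_lt_of_le ?_ hNψ) (by positivity)
    have : 0 ≤ 2 * (b : ℝ) ^ 2 * W := by positivity
    linarith
  refine ⟨b * N, fun i => p i * N + b * w i, min ρ (min (r / 2) (T / (2 * b))), ?_,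
    lt_min hρ (lt_min (half_pos hr) (by positivity)), ?_, ?_, ?_⟩
  · exact lt_mul_of_one_lt_right hb (by omega)
  · rw [hc]
    refine closedBall_subset_closedBall' ?_
    have hd : dist c' (fun i => (p i : ℝ) / b) ≤ W / N := by
      refine (dist_pi_le_iff (by positivity)).2 fun i => ?_
      rw [Real.dist_eq, hc', add_sub_cancel_left, abs_div, abs_of_pos hNR, ← Real.norm_eq_abs]
      exact div_le_div_of_nonneg_right (norm_le_pi_norm (fun i => (w i : ℝ)) i) hNR.le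
    linarith [min_le_right ρ (min (r / 2) (T / (2 * b))), min_le_left (r / 2) (T / (2 * b))]
  · rw [hc]
    exact Set.disjoint_left.2 fun x hx hxS =>
      hball (closedBall_subset_closedBall (min_le_left _ _) hx) hxS
  · rw [hc]
    intro x hx i
    have h1 : |x i - c' i| ≤ T / (2 * b) := by
      rw [← Real.dist_eq]
      exact ((dist_le_pi_dist x c' i).trans (mem_closedBall.1 hx)).trans
        ((min_le_right _ _).trans (min_le_right _ _))
    have h2 : |(w i : ℝ) / N| ≤ W / N := by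
      rw [abs_div, abs_of_pos hNR, ← Real.norm_eq_abs]
      exact div_le_div_of_nonneg_right (norm_le_pi_norm (fun i => (w i : ℝ)) i) hNR.le
    have h3 : W / N ≤ T / (2 * b) := by
      rw [div_le_div_iff₀ hNR (by positivity)]
      refine le_of_mul_le_mul_left ?_ hbR
      linarith
    have e : (b : ℝ) * x i - p i = b * (x i - c' i + (w i : ℝ) / N) := by
      simp only [hc']
      field_simp
      ring
    rw [e, abs_mul, abs_of_pos hbR]
    calc (b : ℝ) * |x i - c' i + (w i : ℝ) / N| ≤ b * (T / (2 * b) + T / (2 * b)) :=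
          mul_le_mul_of_nonneg_left ((abs_add_le _ _).trans (add_le_add h1 (h2.trans h3))) hbR.le
      _ = T := by field_simp; ring

/-- **Khintchine's construction.** A point off countably many escapable sets with approximations
within `ψ Q` at every height, provided that `Q * ψ Q → ∞`. -/
theorem exists_approximable {ψ : ℝ → ℝ} (hmono : AntitoneOn ψ (Set.Ici 1))
    (hψ : Tendsto (fun Q => Q * ψ Q) atTop atTop) {S : ℕ → Set (Fin d → ℝ)}
    (hS : ∀ k, Escapable (S k)) :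
    ∃ x : Fin d → ℝ, (∀ k, x ∉ S k) ∧
      ∀ Q : ℝ, 1 ≤ Q → ∃ q : ℕ, 0 < q ∧ (q : ℝ) ≤ Q ∧
        ∃ p : Fin d → ℤ, ∀ i, |(q : ℝ) * x i - p i| ≤ ψ Q := by
  choose B P R hB hR hsub hdisj happ using fun k (s : {s : ℕ × (Fin d → ℤ) × ℝ //
    0 < s.1 ∧ 0 < s.2.2}) => exists_step (hS k) hψ s.2.1 s.1.2.1 s.2.2
  set s : ℕ → {s : ℕ × (Fin d → ℤ) × ℝ // 0 < s.1 ∧ 0 < s.2.2} := fun k => Nat.rec
    ⟨(1, 0, 1), one_pos, one_pos⟩
    (fun k s => ⟨(B k s, P k s, R k s), s.2.1.trans (hB k s), hR k s⟩) k with hs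
  set K : ℕ → Set (Fin d → ℝ) := fun k =>
    closedBall (fun i => ((s k).1.2.1 i : ℝ) / (s k).1.1) (s k).1.2.2 with hK
  obtain ⟨x, hx⟩ := IsCompact.nonempty_iInter_of_sequence_nonempty_isCompact_isClosed K
    (fun k => hsub k (s k)) (fun k => nonempty_closedBall.2 (s k).2.2.le)
    (isCompact_closedBall _ _) fun k => isClosed_closedBall
  rw [Set.mem_iInter] at hx
  refine ⟨x, fun k hk => Set.disjoint_left.1 (hdisj k (s k)) (hx (k + 1)) hk, fun Q hQ => ?_⟩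
  have hgrow : ∀ k, k + 1 ≤ (s k).1.1 := by
    intro k
    induction k with
    | zero => exact le_rfl
    | succ k ih => exact Nat.lt_iff_add_one_le.1 (ih.trans_lt (hB k (s k)))
  have hex : ∃ k, Q < (((s k).1.1 : ℕ) : ℝ) := by
    obtain ⟨k, hk⟩ := exists_nat_gt Q
    exact ⟨k, hk.trans_le (by exact_mod_cast (Nat.le_succ k).trans (hgrow k))⟩
  have h0 : Nat.find hex ≠ 0 := fun h => by
    have := Nat.find_spec hex
    rw [h] at this
    change Q < ((1 : ℕ) : ℝ) at this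
    rw [Nat.cast_one] at this
    linarith
  obtain ⟨k, hk⟩ := Nat.exists_eq_succ_of_ne_zero h0
  have hlt : Q < ((s (k + 1)).1.1 : ℕ) := by
    have h := Nat.find_spec hex
    rwa [hk] at h
  refine ⟨(s k).1.1, (s k).2.1, not_lt.1 (Nat.find_min hex (by omega : k < Nat.find hex)),
    (s k).1.2.1, fun i => (happ k (s k) x (hx (k + 1)) i).trans ?_⟩
  exact hmono hQ (Set.mem_Ici.2 (hQ.trans hlt.le)) hlt.le

/-- The vectors with approximations within `ψ Q` at every height, off the rational hyperplanes,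
are uncountable. -/
theorem not_countable_approximable (hd : 0 < d) {ψ : ℝ → ℝ} (hmono : AntitoneOn ψ (Set.Ici 1))
    (hψ : Tendsto (fun Q => Q * ψ Q) atTop atTop) :
    ¬Set.Countable {x : Fin d → ℝ |
      (∀ (a : Fin d → ℤ) (n : ℤ), a ≠ 0 → ∑ i, (a i : ℝ) * x i + n ≠ 0) ∧
      ∀ Q : ℝ, 1 ≤ Q → ∃ q : ℕ, 0 < q ∧ (q : ℝ) ≤ Q ∧
        ∃ p : Fin d → ℤ, ∀ i, |(q : ℝ) * x i - p i| ≤ ψ Q} := by
  intro hc
  set bad : Set (Set (Fin d → ℝ)) :=
    (fun z => ({z} : Set (Fin d → ℝ))) '' insert 0 {x : Fin d → ℝ |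
      (∀ (a : Fin d → ℤ) (n : ℤ), a ≠ 0 → ∑ i, (a i : ℝ) * x i + n ≠ 0) ∧
      ∀ Q : ℝ, 1 ≤ Q → ∃ q : ℕ, 0 < q ∧ (q : ℝ) ≤ Q ∧
        ∃ p : Fin d → ℤ, ∀ i, |(q : ℝ) * x i - p i| ≤ ψ Q} ∪
    Set.range fun an : {a : Fin d → ℤ // a ≠ 0} × ℤ =>
      {x : Fin d → ℝ | ∑ i, (an.1.1 i : ℝ) * x i + an.2 = 0} with hbad
  have hcount : bad.Countable := ((hc.insert 0).image _).union (Set.countable_range _)
  have hne : bad.Nonempty := ⟨{0}, Or.inl ⟨0, Set.mem_insert _ _, rfl⟩⟩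
  obtain ⟨S, hS⟩ := hcount.exists_eq_range hne
  have hesc : ∀ k, Escapable (S k) := fun k => by
    rcases (hS ▸ Set.mem_range_self k : S k ∈ bad) with ⟨z, -, hz⟩ | ⟨⟨⟨a, ha⟩, n⟩, h⟩
    · exact hz ▸ escapable_singleton hd z
    · exact h ▸ escapable_hyperplane ha n
  obtain ⟨x, hxS, hx⟩ := exists_approximable hmono hψ hesc
  have hxnot : ∀ T ∈ bad, x ∉ T := fun T hT => by
    obtain ⟨k, rfl⟩ := (hS ▸ hT : T ∈ Set.range S)
    exact hxS k
  refine hxnot {x} (Or.inl ⟨x, Set.mem_insert_of_mem _ ⟨fun a n ha h => ?_, hx⟩, rfl⟩) rfl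
  exact hxnot _ (Or.inr ⟨(⟨a, ha⟩, n), rfl⟩) h

/-- Khintchine: singular vectors off all rational hyperplanes, for `d ≥ 2`. -/
theorem not_countable_singular (hd : 2 ≤ d) :
    ¬Set.Countable {x : Fin d → ℝ |
      (∀ (a : Fin d → ℤ) (n : ℤ), a ≠ 0 → ∑ i, (a i : ℝ) * x i + n ≠ 0) ∧
      ∀ ε : ℝ, 0 < ε → ∀ᶠ Q : ℝ in atTop, ∃ q : ℕ, 0 < q ∧ (q : ℝ) ≤ Q ∧
        ∃ p : Fin d → ℤ, ∀ i, |(q : ℝ) * x i - p i| ≤ ε / Q ^ (1 / (d : ℝ))} := by
  have hd2 : (2 : ℝ) ≤ d := by exact_mod_cast hd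
  have hmono : AntitoneOn (fun Q : ℝ => Q ^ (-(3 / 4 : ℝ))) (Set.Ici 1) := fun a ha b _ hab =>
    Real.rpow_le_rpow_of_nonpos (zero_lt_one.trans_le ha) hab (by norm_num)
  have hψ : Tendsto (fun Q : ℝ => Q * Q ^ (-(3 / 4 : ℝ))) atTop atTop := by
    refine (tendsto_rpow_atTop (by norm_num : (0 : ℝ) < 1 / 4)).congr' ?_
    filter_upwards [eventually_gt_atTop 0] with Q hQ
    rw [show (1 / 4 : ℝ) = 1 + -(3 / 4) by norm_num, Real.rpow_add hQ, Real.rpow_one]
  refine fun hc => not_countable_approximable (by omega) hmono hψ (hc.mono ?_)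
  rintro x ⟨hirr, hx⟩
  refine ⟨hirr, fun ε hε => ?_⟩
  filter_upwards [eventually_ge_atTop 1, (tendsto_rpow_atTop (by norm_num : (0 : ℝ) < 1 / 4)
    ).eventually_ge_atTop ε⁻¹] with Q hQ hQε
  obtain ⟨q, hq, hqQ, p, hp⟩ := hx Q hQ
  refine ⟨q, hq, hqQ, p, fun i => (hp i).trans ?_⟩
  have hQ0 : (0 : ℝ) < Q := zero_lt_one.trans_le hQ
  have h1 : 1 / (d : ℝ) ≤ 1 / 2 := one_div_le_one_div_of_le two_pos hd2
  rw [le_div_iff₀ (Real.rpow_pos_of_pos hQ0 _), ← Real.rpow_add hQ0]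
  refine (Real.rpow_le_rpow_of_exponent_le hQ
    (show -(3 / 4 : ℝ) + 1 / d ≤ -(1 / 4) by linarith)).trans ?_
  rw [Real.rpow_neg hQ0.le]
  exact (inv_le_comm₀ hε (Real.rpow_pos_of_pos hQ0 _)).1 hQε

/-- In dimension one only the rationals are singular. -/
theorem not_irrational_of_singular {x : ℝ}
    (h : ∀ᶠ Q : ℝ in atTop, ∃ q : ℕ, 0 < q ∧ (q : ℝ) ≤ Q ∧ ∃ p : ℤ, |(q : ℝ) * x - p| ≤ 1 / 4 / Q) :
    ¬Irrational x := by
  intro hx
  obtain ⟨Q₀, hQ₀⟩ := eventually_atTop.1 h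
  obtain ⟨N, hN⟩ := exists_nat_gt (max Q₀ 1)
  have hN1 : 1 ≤ N := by
    have : (1 : ℝ) < N := (le_max_right _ _).trans_lt hN
    exact_mod_cast this.le
  set g : ℕ → ℝ := fun q => |(q : ℝ) * x - round ((q : ℝ) * x)| with hg
  obtain ⟨q, hqmem, hmin⟩ :=
    (Finset.Icc 1 N).exists_min_image g ⟨1, Finset.mem_Icc.2 ⟨le_rfl, hN1⟩⟩
  rw [Finset.mem_Icc] at hqmem
  have hqR : (0 : ℝ) < q := Nat.cast_pos.2 hqmem.1
  have hpos : 0 < g q := by
    refine abs_pos.2 (sub_ne_zero.2 ?_)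
    exact (irrational_natCast_mul_iff.2 ⟨by omega, hx⟩).ne_int _
  have hex : ∃ q' : ℕ, 1 ≤ q' ∧ g q' < g q := by
    obtain ⟨M, hM⟩ := exists_nat_gt (max Q₀ (max 1 (1 / g q)))
    obtain ⟨q', hq', -, p, hp⟩ := hQ₀ M ((le_max_left _ _).trans hM.le)
    refine ⟨q', hq', ((round_le _ p).trans hp).trans_lt ?_⟩
    have hM0 : 1 / g q < M := ((le_max_right _ _).trans (le_max_right _ _)).trans_lt hM
    have hM1 : (0 : ℝ) < M := (one_div_pos.2 hpos).trans hM0
    rw [div_lt_iff₀ hpos] at hM0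
    rw [div_lt_iff₀ hM1]
    linarith
  set q' := Nat.find hex with hq'def
  obtain ⟨hq'1, hq'lt⟩ := Nat.find_spec hex
  have hq'N : N < q' := by
    by_contra hle
    exact absurd (hmin q' (Finset.mem_Icc.2 ⟨hq'1, not_lt.1 hle⟩)) (not_le.2 hq'lt)
  have hq'R : (N : ℝ) + 1 ≤ q' := by exact_mod_cast hq'N
  have hbig : Q₀ ≤ (q' : ℝ) - 1 / 2 := by linarith [le_max_left Q₀ 1]
  obtain ⟨r, hr, hrQ, p, hp⟩ := hQ₀ _ hbig
  have hrlt : r < q' := by
    have : (r : ℝ) < q' := by linarith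
    exact_mod_cast this
  have hδ : g q ≤ 1 / 4 / ((q' : ℝ) - 1 / 2) := by
    refine le_trans ?_ ((round_le _ p).trans hp)
    by_contra hlt
    exact Nat.find_min hex hrlt ⟨hr, not_le.1 hlt⟩
  -- the two approximations are independent
  have hne : round ((q : ℝ) * x) * q' - round ((q' : ℝ) * x) * q ≠ 0 := by
    intro h0
    have h0' : (round ((q : ℝ) * x) : ℝ) * q' = round ((q' : ℝ) * x) * q := by
      exact_mod_cast sub_eq_zero.1 h0
    have e : g q' * q = g q * q' := by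
      rw [hg]
      simp only
      rw [← Nat.abs_cast (R := ℝ) q, ← abs_mul, ← Nat.abs_cast (R := ℝ) q', ← abs_mul,
        Nat.abs_cast, Nat.abs_cast]
      congr 1
      linear_combination h0'
    have hqq' : (q : ℝ) ≤ q' := by exact_mod_cast hqmem.2.trans hq'N.le
    have h1 := mul_lt_mul_of_pos_right hq'lt hqR
    have h2 := mul_le_mul_of_nonneg_left hqq' hpos.le
    linarith
  have h1 : (1 : ℝ) ≤ |(round ((q : ℝ) * x) : ℝ) * q' - round ((q' : ℝ) * x) * q| := by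
    exact_mod_cast Int.one_le_abs hne
  have h2 : |(round ((q : ℝ) * x) : ℝ) * q' - round ((q' : ℝ) * x) * q| ≤
      q * g q' + q' * g q := by
    rw [show (round ((q : ℝ) * x) : ℝ) * q' - round ((q' : ℝ) * x) * q =
      q * ((q' : ℝ) * x - round ((q' : ℝ) * x)) - q' * ((q : ℝ) * x - round ((q : ℝ) * x)) by ring]
    refine (abs_sub _ _).trans_eq ?_
    rw [abs_mul, abs_mul, Nat.abs_cast, Nat.abs_cast]
  have h3 : (q : ℝ) * g q' ≤ q' * g q :=
    mul_le_mul (by exact_mod_cast hqmem.2.trans hq'N.le) hq'lt.le (abs_nonneg _) (Nat.cast_nonneg _)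
  have h4 : (q' : ℝ) * g q ≤ q' * (1 / 4 / ((q' : ℝ) - 1 / 2)) :=
    mul_le_mul_of_nonneg_left hδ (Nat.cast_nonneg _)
  have h5 : (q' : ℝ) * (1 / 4 / ((q' : ℝ) - 1 / 2)) < 1 / 2 := by
    have hN2 : (1 : ℝ) ≤ N := by exact_mod_cast hN1
    rw [mul_div_assoc', div_lt_iff₀ (by linarith)]
    linarith
  linarith

/-- Rationals are singular. -/
theorem eventually_of_rat (r : ℚ) {ε : ℝ} (hε : 0 < ε) :
    ∀ᶠ Q : ℝ in atTop, ∃ q : ℕ, 0 < q ∧ (q : ℝ) ≤ Q ∧ ∃ p : ℤ, |(q : ℝ) * r - p| ≤ ε / Q := by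
  filter_upwards [eventually_ge_atTop ((r.den : ℝ)), eventually_gt_atTop 0] with Q hQ hQ0
  refine ⟨r.den, r.pos, hQ, r.num, ?_⟩
  rw [Rat.cast_def, mul_div_cancel₀ _ (Nat.cast_ne_zero.2 r.den_ne_zero), sub_self, abs_zero]
  positivity

end FA.SingularVectors
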